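/-
S17 row, piece G-TORS / P2 (helper257).

A ring homomorphism `φ : F →+* C((z))` from a function field `F/K` into Laurent series whose
values on `K^×` have order `0` is (a multiple of) a place of `F/K` in the sense of the Prelude, or
trivial.  Consequence (`dvd_order_of_forall_place`): if `n ∣ ord_v u` for ALL places `v` of `F/K`
then `n ∣ order (φ u)`.
-/
import Mathlib
import Fermat.Prelude.Def_AlgebraicCurve_DivisorClassGroup

set_option autoImplicit false

noncomputable section

namespace Fermat.Agent.S17.H257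

open AlgebraicCurve

variable {K F : Type*} [Field K] [Field F] [Algebra K F] {C : Type*} [Field C]

/-- The order of the expansion of `g`. -/
def expOrd (φ : F →+* LaurentSeries C) (g : F) : ℤ := (φ g).order

theorem expOrd_zero (φ : F →+* LaurentSeries C) : expOrd φ 0 = 0 := by
  simp [expOrd]

theorem expOrd_one (φ : F →+* LaurentSeries C) : expOrd φ 1 = 0 := by
  simp [expOrd]

theorem map_ne_zero_of_ne_zero (φ : F →+* LaurentSeries C) {g : F} (hg : g ≠ 0) : φ g ≠ 0 :=
  (map_ne_zero φ).mpr hg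

theorem expOrd_mul (φ : F →+* LaurentSeries C) {g g' : F} (hg : g ≠ 0) (hg' : g' ≠ 0) :
    expOrd φ (g * g') = expOrd φ g + expOrd φ g' := by
  unfold expOrd
  rw [map_mul]
  exact HahnSeries.order_mul (map_ne_zero_of_ne_zero φ hg) (map_ne_zero_of_ne_zero φ hg')

theorem expOrd_inv (φ : F →+* LaurentSeries C) (g : F) : expOrd φ g⁻¹ = -expOrd φ g := by
  rcases eq_or_ne g 0 with rfl | hg
  · simp [expOrd_zero]
  · have h := expOrd_mul φ hg (inv_ne_zero hg)
    rw [mul_inv_cancel₀ hg, expOrd_one] at h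
    omega

theorem expOrd_neg (φ : F →+* LaurentSeries C) (g : F) : expOrd φ (-g) = expOrd φ g := by
  unfold expOrd
  rw [map_neg, HahnSeries.order_neg]

theorem expOrd_add (φ : F →+* LaurentSeries C) {g g' : F} (h : g + g' ≠ 0) :
    min (expOrd φ g) (expOrd φ g') ≤ expOrd φ (g + g') := by
  unfold expOrd
  rw [map_add]
  refine HahnSeries.min_order_le_order_add ?_
  rw [← map_add]
  exact map_ne_zero_of_ne_zero φ h

/-- The order of the expansion as a group homomorphism on units. -/
def expOrdHom (φ : F →+* LaurentSeries C) : Fˣ →* Multiplicative ℤ where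
  toFun g := Multiplicative.ofAdd (expOrd φ (g : F))
  map_one' := by simp [expOrd_one]
  map_mul' g g' := by
    rw [Units.val_mul, expOrd_mul φ g.ne_zero g'.ne_zero, ofAdd_add]

theorem expOrd_zpow (φ : F →+* LaurentSeries C) {g : F} (hg : g ≠ 0) (k : ℤ) :
    expOrd φ (g ^ k) = k * expOrd φ g := by
  have h := map_zpow (expOrdHom φ) (Units.mk0 g hg) k
  have h1 : expOrdHom φ (Units.mk0 g hg ^ k) = Multiplicative.ofAdd (expOrd φ (g ^ k)) := by
    show Multiplicative.ofAdd (expOrd φ ((Units.mk0 g hg ^ k : Fˣ) : F)) = _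
    rw [Units.val_zpow_eq_zpow_val, Units.val_mk0]
  have h2 : expOrdHom φ (Units.mk0 g hg) = Multiplicative.ofAdd (expOrd φ g) := rfl
  rw [h1, h2, ← ofAdd_zsmul] at h
  have h3 := Multiplicative.ofAdd.injective h
  rw [h3, smul_eq_mul]

/-- The valuation subring `{g | 0 ≤ order (φ g)}`. -/
def expSubring (φ : F →+* LaurentSeries C) : ValuationSubring F where
  carrier := {g | 0 ≤ expOrd φ g}
  mul_mem' := by
    intro a b ha hb
    simp only [Set.mem_ofPred_eq] at ha hb ⊢
    rcases eq_or_ne a 0 with rfl | ha0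
    · simp [expOrd_zero]
    rcases eq_or_ne b 0 with rfl | hb0
    · simp [expOrd_zero]
    rw [expOrd_mul φ ha0 hb0]
    omega
  one_mem' := by simp [expOrd_one]
  add_mem' := by
    intro a b ha hb
    simp only [Set.mem_ofPred_eq] at ha hb ⊢
    rcases eq_or_ne (a + b) 0 with h0 | h0
    · rw [h0, expOrd_zero]
    · exact le_trans (le_min ha hb) (expOrd_add φ h0)
  zero_mem' := by simp [expOrd_zero]
  neg_mem' := by
    intro a ha
    simp only [Set.mem_ofPred_eq] at ha ⊢
    rwa [expOrd_neg]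
  mem_or_inv_mem' := by
    intro g
    simp only [Set.mem_ofPred_eq]
    rw [expOrd_inv]
    omega

theorem mem_expSubring (φ : F →+* LaurentSeries C) {g : F} :
    g ∈ expSubring φ ↔ 0 ≤ expOrd φ g := Iff.rfl

/-- `expSubring φ` is a principal ideal ring. -/
theorem isPrincipalIdealRing_expSubring (φ : F →+* LaurentSeries C) :
    IsPrincipalIdealRing (expSubring φ) := by
  classical
  refine ⟨fun I => ?_⟩
  by_cases hI : I = ⊥
  · rw [hI]
    exact bot_isPrincipal
  -- a nonzero element of minimal order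
  have hne : ∃ k : ℕ, ∃ a ∈ I, a ≠ 0 ∧ expOrd φ (a : F) = k := by
    obtain ⟨a, ha, ha0⟩ := Submodule.exists_mem_ne_zero_of_ne_bot hI
    refine ⟨(expOrd φ (a : F)).toNat, a, ha, ha0, ?_⟩
    rw [Int.toNat_of_nonneg a.2]
  obtain ⟨a, ha, ha0, hak⟩ := Nat.find_spec hne
  have hmin : ∀ b ∈ I, b ≠ 0 → expOrd φ (a : F) ≤ expOrd φ (b : F) := by
    intro b hb hb0
    have hbk : ∃ c ∈ I, c ≠ 0 ∧ expOrd φ (c : F) = ((expOrd φ (b : F)).toNat : ℕ) :=
      ⟨b, hb, hb0, by rw [Int.toNat_of_nonneg b.2]⟩
    have := Nat.find_min' hne hbk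
    rw [hak]
    have h2 : ((expOrd φ (b : F)).toNat : ℤ) = expOrd φ (b : F) := Int.toNat_of_nonneg b.2
    rw [← h2]
    exact_mod_cast this
  refine ⟨a, ?_⟩
  apply le_antisymm
  · intro b hb
    rw [Submodule.mem_span_singleton]
    rcases eq_or_ne b 0 with rfl | hb0
    · exact ⟨0, by simp⟩
    have haF : (a : F) ≠ 0 := fun h => ha0 (Subtype.ext h)
    have hbF : (b : F) ≠ 0 := fun h => hb0 (Subtype.ext h)
    have hq : (b : F) * (a : F)⁻¹ ∈ expSubring φ := by
      rw [mem_expSubring, expOrd_mul φ hbF (inv_ne_zero haF), expOrd_inv]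
      have := hmin b hb hb0
      omega
    refine ⟨⟨_, hq⟩, ?_⟩
    apply Subtype.ext
    show (b : F) * (a : F)⁻¹ * (a : F) = b
    rw [mul_assoc, inv_mul_cancel₀ haF, mul_one]
  · rw [Submodule.span_le]
    intro b hb
    rw [Set.mem_singleton_iff] at hb
    rw [hb]
    exact ha

/-- The place of `F/K` attached to a nontrivial expansion. -/
def expPlace (φ : F →+* LaurentSeries C)
    (hφ : ∀ c : K, c ≠ 0 → (φ (algebraMap K F c)).order = 0)
    (hnt : ∃ g : F, g ≠ 0 ∧ expOrd φ g ≠ 0) : Place K F where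
  toValuationSubring := expSubring φ
  algebraMap_mem' := by
    intro c
    rw [mem_expSubring]
    rcases eq_or_ne c 0 with rfl | hc
    · simp [expOrd_zero]
    · exact (hφ c hc).ge
  ne_top' := by
    obtain ⟨g, hg, hg0⟩ := hnt
    intro htop
    have h1 : g ∈ expSubring φ := by rw [htop]; exact ValuationSubring.mem_top g
    have h2 : g⁻¹ ∈ expSubring φ := by rw [htop]; exact ValuationSubring.mem_top _
    rw [mem_expSubring] at h1 h2
    rw [expOrd_inv] at h2
    omega
  isPrincipalIdealRing' := isPrincipalIdealRing_expSubring φ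

/-- Units of `expSubring φ` have order `0`. -/
theorem expOrd_unit (φ : F →+* LaurentSeries C) (a : (expSubring φ)ˣ) :
    expOrd φ ((a : expSubring φ) : F) = 0 := by
  have h1 : 0 ≤ expOrd φ ((a : expSubring φ) : F) := (a : expSubring φ).2
  have h2 : 0 ≤ expOrd φ (((a⁻¹ : (expSubring φ)ˣ) : expSubring φ) : F) :=
    ((a⁻¹ : (expSubring φ)ˣ) : expSubring φ).2
  have h3 : (((a⁻¹ : (expSubring φ)ˣ) : expSubring φ) : F) = (((a : expSubring φ)) : F)⁻¹ := by
    have h4 : ((a : expSubring φ) : F) * (((a⁻¹ : (expSubring φ)ˣ) : expSubring φ) : F) = 1 := by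
      have h5 : (a : expSubring φ) * ((a⁻¹ : (expSubring φ)ˣ) : expSubring φ) = 1 := a.mul_inv
      have h6 := congrArg (fun z : expSubring φ => (z : F)) h5
      exact h6
    exact eq_inv_of_mul_eq_one_right h4
  rw [h3, expOrd_inv] at h2
  omega

/-- **P2.** If `n ∣ ord_v u` for all places `v` of `F/K`, then `n` divides the order of the
expansion of `u`. -/
theorem dvd_order_of_forall_place (φ : F →+* LaurentSeries C)
    (hφ : ∀ c : K, c ≠ 0 → (φ (algebraMap K F c)).order = 0)
    (n : ℤ) (u : F) (hu : u ≠ 0) (h : ∀ v : Place K F, n ∣ v.ord u) :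
    n ∣ (φ u).order := by
  by_cases hnt : ∃ g : F, g ≠ 0 ∧ expOrd φ g ≠ 0
  · set v : Place K F := expPlace φ hφ hnt with hv
    obtain ⟨π, hπ⟩ := IsDiscreteValuationRing.exists_irreducible v.toValuationSubring
    obtain ⟨a, ha⟩ := v.exists_unit_mul_zpow hu hπ
    have hπF : ((π : v.toValuationSubring) : F) ≠ 0 := by
      intro h0
      exact hπ.ne_zero (Subtype.ext h0)
    have haF : (((a : v.toValuationSubring)) : F) ≠ 0 := by
      intro h0
      exact a.ne_zero (Subtype.ext h0)
    have hord : expOrd φ u = v.ord u * expOrd φ ((π : v.toValuationSubring) : F) := by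
      conv_lhs => rw [ha]
      rw [expOrd_mul φ haF (zpow_ne_zero _ hπF), expOrd_zpow φ hπF]
      have := expOrd_unit φ a
      rw [this, zero_add]
    show n ∣ expOrd φ u
    rw [hord]
    exact Dvd.dvd.mul_right (h v) _
  · have h0 : expOrd φ u = 0 := by
      by_contra hne
      exact hnt ⟨u, hu, hne⟩
    show n ∣ expOrd φ u
    rw [h0]
    exact dvd_zero n

end Fermat.Agent.S17.H257
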