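/-
S17 row, piece G-TORS / P1 + P0 (helper257).

* `rhoHom N : RN N →+* holoRing` — the realisation of a polynomial in the `j(q^d)` (`d ∣ N`,
  coefficients in `ℚ̄`) as a good holomorphic function on `ℍ` (choice from landed
  `H882.AK_le_goodQ`, ring hom by uniqueness of `q`-expansions).
* `tay N τ₀ : FF N →+* ℂ((z))` — the Taylor embedding of the function field at `τ₀ ∈ ℍ`.
* `tay_eq_of_realises` — if `G` realises `u` then `tay N τ₀ u` is the Taylor series of `G`.
* `exists_tay` (P1) and `exists_realises_mul_pow` (P0) in the exact shape of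
  `origin/helper257:Fermat/Agent/S17/GTors/Skeleton.lean`.
-/
import Fermat.Agent.S29.M4b.Defs
import Fermat.Agent.S24.Mod.H997Frac
import Fermat.Agent.S24.H624.Laurent

set_option autoImplicit false

noncomputable section

open ModularCurve AlgebraicCurve CongruenceSubgroup UpperHalfPlane
open scoped MatrixGroups Manifold

namespace Fermat.Agent.S17.H257

open Fermat.Agent.S24 Fermat.Agent.S29 Fermat.Agent.S29.M4b
open Fermat.Agent.S24.H708 Fermat.Agent.S24.H624

variable (N : ℕ) [NeZero N]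

/-- Every polynomial in the `j(q^d)` is the `q`-expansion of a good function. -/
theorem exists_good (r : H997.RN N) :
    ∃ f : ℍ → ℂ, f ∈ H648.goodRing N ∧
      HasQExp 1 f (coeffMap Deg457.iotaC (r : LaurentSeries Kbar)) :=
  H882.AK_le_goodQ N (Deg457.coeffMap_mem_AK Deg457.iotaC (N := N) r.2)

/-- The good function with `q`-expansion `r`. -/
def rho (r : H997.RN N) : ℍ → ℂ := (exists_good N r).choose

theorem rho_mem (r : H997.RN N) : rho N r ∈ H648.goodRing N := (exists_good N r).choose_spec.1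

theorem rho_hasQExp (r : H997.RN N) :
    HasQExp 1 (rho N r) (coeffMap Deg457.iotaC (r : LaurentSeries Kbar)) :=
  (exists_good N r).choose_spec.2

theorem rho_eq {r : H997.RN N} {f : ℍ → ℂ}
    (hf : HasQExp 1 f (coeffMap Deg457.iotaC (r : LaurentSeries Kbar))) : rho N r = f :=
  (rho_hasQExp N r).eq_of_eq hf

/-- The realisation ring homomorphism. -/
def rhoHom : H997.RN N →+* holoRing where
  toFun r := ⟨rho N r, (rho_mem N r).1⟩
  map_one' := by
    apply Subtype.ext
    refine rho_eq N ?_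
    have h : ((1 : H997.RN N) : LaurentSeries Kbar) = 1 := rfl
    rw [h, map_one]
    exact HasQExp.one 1
  map_mul' r s := by
    apply Subtype.ext
    refine rho_eq N ?_
    have h : ((r * s : H997.RN N) : LaurentSeries Kbar)
        = (r : LaurentSeries Kbar) * (s : LaurentSeries Kbar) := rfl
    rw [h, map_mul]
    exact (rho_hasQExp N r).mul (rho_hasQExp N s)
  map_zero' := by
    apply Subtype.ext
    refine rho_eq N ?_
    have h : ((0 : H997.RN N) : LaurentSeries Kbar) = 0 := rfl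
    rw [h, map_zero]
    exact HasQExp.zero 1
  map_add' r s := by
    apply Subtype.ext
    refine rho_eq N ?_
    have h : ((r + s : H997.RN N) : LaurentSeries Kbar)
        = (r : LaurentSeries Kbar) + (s : LaurentSeries Kbar) := rfl
    rw [h, map_add]
    exact (rho_hasQExp N r).add (rho_hasQExp N s)

theorem coe_rhoHom (r : H997.RN N) : ((rhoHom N r : holoRing) : ℍ → ℂ) = rho N r := rfl

theorem rhoHom_injective : Function.Injective (rhoHom N) := by
  rw [injective_iff_map_eq_zero]
  intro r hr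
  have h1 : rho N r = 0 := congrArg (fun f : holoRing => (f : ℍ → ℂ)) hr
  have h2 := (rho_hasQExp N r).eq_zero_iff.mpr h1
  have hinj : Function.Injective (coeffMap Deg457.iotaC : LaurentSeries Kbar →+* _) :=
    RingHom.injective _
  apply Subtype.ext
  exact hinj (h2.trans (map_zero (coeffMap Deg457.iotaC)).symm)

/-- Taylor expansion at `τ₀` of the realisation. -/
def tayRN (τ₀ : ℍ) : H997.RN N →+* LaurentSeries ℂ := (taylorLaurent τ₀).comp (rhoHom N)

theorem tayRN_injective (τ₀ : ℍ) : Function.Injective (tayRN N τ₀) :=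
  (taylorLaurent_injective τ₀).comp (rhoHom_injective N)

/-- **The Taylor embedding of the function field of `X₀(N)` at `τ₀ ∈ ℍ`.** -/
def tay (τ₀ : ℍ) : FF N →+* LaurentSeries ℂ := H997.liftF (tayRN N τ₀) (tayRN_injective N τ₀)

theorem tay_inclRN (τ₀ : ℍ) (r : H997.RN N) :
    tay N τ₀ (H997.inclRN N r) = taylorLaurent τ₀ (rhoHom N r) :=
  H997.liftF_inclRN _ _ r

/-- If `G` realises `u`, then the Taylor embedding of `u` is the Taylor series of `G`. -/
theorem tay_eq_of_realises (τ₀ : ℍ) {u : FF N} {G : ℍ → ℂ} (hG : Realises N u G) :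
    tay N τ₀ u = taylorLaurent τ₀ ⟨G, hG.1.1⟩ := by
  obtain ⟨r, s, hs, hu⟩ := H997.exists_div_inclRN N u
  have hsF : H997.inclRN N s ≠ 0 := fun h0 =>
    hs (H997.inclRN_injective N (by rw [h0, map_zero]))
  have hus : u * H997.inclRN N s = H997.inclRN N r := by
    rw [hu, div_mul_cancel₀ _ hsF]
  have hGq : HasQExp 1 G (coeffMap Deg457.iotaC ((u : FF N) : LaurentSeries Kbar)) := by
    have := H882.hasQExp_of_mem_goodRing hG.1
    rwa [hG.2] at this
  have h1 : HasQExp 1 (G * rho N s) (coeffMap Deg457.iotaC ((r : H997.RN N) : LaurentSeries Kbar)) := by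
    have h2 := hGq.mul (rho_hasQExp N s)
    rw [← map_mul] at h2
    have h3 : ((u : FF N) : LaurentSeries Kbar) * ((s : H997.RN N) : LaurentSeries Kbar)
        = ((r : H997.RN N) : LaurentSeries Kbar) := by
      have := congrArg (fun z : FF N => (z : LaurentSeries Kbar)) hus
      simpa using this
    rwa [h3] at h2
  have h4 : G * rho N s = rho N r := (rho_eq N h1).symm
  have h5 : (⟨G, hG.1.1⟩ : holoRing) * rhoHom N s = rhoHom N r := Subtype.ext h4
  have h6 : taylorLaurent τ₀ ⟨G, hG.1.1⟩ * tayRN N τ₀ s = tayRN N τ₀ r := by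
    show taylorLaurent τ₀ ⟨G, hG.1.1⟩ * taylorLaurent τ₀ (rhoHom N s)
      = taylorLaurent τ₀ (rhoHom N r)
    rw [← map_mul, h5]
  have hs0 : tayRN N τ₀ s ≠ 0 := fun h0 =>
    hs (tayRN_injective N τ₀ (by rw [h0, map_zero]))
  have hval : tay N τ₀ u = tayRN N τ₀ r / tayRN N τ₀ s := by
    rw [hu]
    exact H997.liftF_div _ _ r s
  rw [hval, ← h6, mul_div_assoc, div_self hs0, mul_one]

/-- Order of a Taylor series. -/
theorem order_taylorLaurent (τ₀ : ℍ) {f : holoRing} (hf : f ≠ 0) :
    (taylorLaurent τ₀ f).order = ((ordAt τ₀ (f : ℍ → ℂ)).toNat : ℤ) := by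
  have := order_laurentAt_algebraMap τ₀ hf
  rwa [laurentAt_algebraMap] at this

/-- **P1.** -/
theorem exists_tay (τ₀ : ℍ) :
    ∃ φ : FF N →+* LaurentSeries ℂ,
      (∀ c : Kbar, c ≠ 0 → (φ (algebraMap Kbar (FF N) c)).order = 0) ∧
      ∀ (u : FF N) (G : ℍ → ℂ), u ≠ 0 → Realises N u G →
        analyticOrderAt (G ∘ ofComplex) (τ₀ : ℂ) = (((φ u).order.toNat : ℕ) : ℕ∞) ∧
          0 ≤ (φ u).order := by
  have key : ∀ (u : FF N) (G : ℍ → ℂ), u ≠ 0 → Realises N u G →
      analyticOrderAt (G ∘ ofComplex) (τ₀ : ℂ) = (((tay N τ₀ u).order.toNat : ℕ) : ℕ∞) ∧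
        0 ≤ (tay N τ₀ u).order := by
    intro u G hu hG
    have hG0 : (⟨G, hG.1.1⟩ : holoRing) ≠ 0 := by
      intro h0
      have h1 := tay_eq_of_realises N τ₀ hG
      rw [h0, map_zero] at h1
      exact hu ((map_eq_zero (tay N τ₀)).mp h1)
    have hord := order_taylorLaurent τ₀ hG0
    rw [← tay_eq_of_realises N τ₀ hG] at hord
    have hne : ordAt τ₀ G ≠ ⊤ := ordAt_ne_top hG.1.1 (fun h => hG0 (Subtype.ext h)) τ₀
    refine ⟨?_, ?_⟩
    · rw [hord, Int.toNat_natCast, ← ordAt_def]
      exact (ENat.natCast_toNat hne).symm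
    · rw [hord]
      exact Int.natCast_nonneg _
  refine ⟨tay N τ₀, ?_, key⟩
  intro c hc
  -- constants are realised by constant functions
  have hR : Realises N (algebraMap Kbar (FF N) c) (fun _ => Deg457.iotaC c) := by
    refine ⟨(H648.goodRing N).algebraMap_mem (Deg457.iotaC c), ?_⟩
    have h1 := (HasQExp.const 1 (Deg457.iotaC c)).qexpFun_eq
    rw [h1]
    have h2 : ((algebraMap Kbar (FF N) c : FF N) : LaurentSeries Kbar)
        = algebraMap Kbar (LaurentSeries Kbar) c := rfl
    rw [h2]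
    have h7 : algebraMap ℂ (LaurentSeries ℂ) (Deg457.iotaC c) = HahnSeries.C (Deg457.iotaC c) := by
      rw [algebraMap_laurentSeries_eq_single]; rfl
    rw [← h7]
    exact (Deg457.coeffMap_algebraMap' Deg457.iotaC c).symm
  have hc' : algebraMap Kbar (FF N) c ≠ 0 := (map_ne_zero _).mpr hc
  obtain ⟨h3, h4⟩ := key _ _ hc' hR
  have h5 : analyticOrderAt ((fun _ : ℍ => Deg457.iotaC c) ∘ ofComplex) (τ₀ : ℂ) = 0 := by
    rw [analyticOrderAt_eq_zero]
    right
    simp only [Function.comp_apply]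
    exact (map_ne_zero _).mpr hc
  rw [h5] at h3
  have h6 : (tay N τ₀ (algebraMap Kbar (FF N) c)).order.toNat = 0 := by
    exact_mod_cast h3.symm
  omega

/-- **P0.** Clearing poles by an `n`-th power. -/
theorem exists_realises_mul_pow (n : ℕ) (hn : n ≠ 0) (f : FF N) :
    ∃ (t : FF N) (G : ℍ → ℂ), t ≠ 0 ∧ Realises N (f * t ^ n) G := by
  obtain ⟨r, s, hs, hf⟩ := H997.exists_div_inclRN N f
  have hsF : H997.inclRN N s ≠ 0 := fun h0 =>
    hs (H997.inclRN_injective N (by rw [h0, map_zero]))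
  obtain ⟨m, rfl⟩ : ∃ m, n = m + 1 := ⟨n - 1, by omega⟩
  have hft : f * H997.inclRN N s ^ (m + 1) = H997.inclRN N (r * s ^ m) := by
    rw [hf, map_mul, map_pow, pow_succ]
    field_simp
  refine ⟨H997.inclRN N s, rho N (r * s ^ m), hsF, rho_mem N _, ?_⟩
  rw [(rho_hasQExp N (r * s ^ m)).qexpFun_eq, hft]
  rfl

end Fermat.Agent.S17.H257
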