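/-
S17 row, piece G-TORS (helper257): the `n`-torsion of `J₀(N)(ℚ̄)` is finite.

`torsion_finite` is the EXACT statement of `origin/helper17:Fermat/Agent/S17/Skeleton.lean`.

Assembly of landed pieces:
* P0 `H257.exists_realises_mul_pow`  (clearing poles)            = `S30.Fin.ClearStatement`
* P1 `H257.exists_tay`               (Taylor embedding at `τ₀`)   \
* P2 `H257.dvd_order_of_forall_place` (expansions are places)      > `S30.Fin.OrderStatement`
* `S29.M4b.H822.realises_ne_zero`                                = `S30.Fin.NonzeroStatement`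
* `S29.M4b.H822.isKum_unique`        (K4-UNIQ)                   = `S30.Fin.UniqStatement`
* `S30.Fin.finite_torsion_of_pieces` (ROOT + character + Schreier).
-/
import Fermat.Agent.S17.H257.PlaceOfExpansion
import Fermat.Agent.S17.H257.Tay
import Fermat.Agent.S30.Fin.Onto
import Fermat.Agent.S29.M4b.H822.K4Uniq

set_option autoImplicit false

noncomputable section

open ModularCurve AlgebraicCurve CongruenceSubgroup UpperHalfPlane
open scoped MatrixGroups Manifold

namespace Fermat.Agent.S17.H257

open Fermat.Agent.S24 Fermat.Agent.S29 Fermat.Agent.S29.M4b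

/-- `S30.Fin.ClearStatement` holds. -/
theorem clearStatement (N m : ℕ) [NeZero N] [NeZero m] : S30.Fin.ClearStatement N m :=
  fun f _ => exists_realises_mul_pow N m (NeZero.ne m) f

/-- `S30.Fin.NonzeroStatement` holds. -/
theorem nonzeroStatement (N : ℕ) [NeZero N] : S30.Fin.NonzeroStatement N := by
  intro u G hu hG
  by_contra hcon
  simp only [not_exists, not_not] at hcon
  exact H822.realises_ne_zero hG hu (funext hcon)

/-- `S30.Fin.OrderStatement` holds. -/
theorem orderStatement (N m : ℕ) [NeZero N] [NeZero m] : S30.Fin.OrderStatement N m := by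
  intro f t x G ht hK hG τ
  have hm : m ≠ 0 := NeZero.ne m
  have hf0 : f ≠ 0 := hK.ne_zero
  have hu0 : f * t ^ m ≠ 0 := mul_ne_zero hf0 (pow_ne_zero m ht)
  obtain ⟨-, D, -, hfD⟩ := hK
  have hord : ∀ v : Place Kbar (FF N), (m : ℤ) ∣ v.ord (f * t ^ m) := by
    intro v
    rw [Place.ord_mul v hf0 (pow_ne_zero m ht), ← hfD v]
    have h2 : v.ord (t ^ m) = (m : ℤ) * v.ord t := by
      have := Place.ord_zpow v t (m : ℤ)
      rwa [zpow_natCast] at this
    rw [h2]
    exact dvd_add (dvd_mul_right _ _) (dvd_mul_right _ _)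
  obtain ⟨φ, hφ, hφG⟩ := exists_tay N τ
  obtain ⟨h3, h4⟩ := hφG _ G hu0 hG
  obtain ⟨k, hk⟩ := dvd_order_of_forall_place φ hφ (m : ℤ) _ hu0 hord
  have hk0 : 0 ≤ k := by
    rw [hk] at h4
    by_contra hneg
    rw [not_le] at hneg
    have hnpos : (0 : ℤ) < m := by exact_mod_cast Nat.pos_of_ne_zero hm
    nlinarith
  refine ⟨k.toNat, ?_⟩
  rw [h3, hk]
  congr 1
  have : ((m : ℤ) * k).toNat = m * k.toNat := by
    rw [Int.toNat_mul (by positivity) hk0]
    simp
  exact this

/-- `S30.Fin.UniqStatement` holds. -/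
theorem uniqStatement (N m : ℕ) [NeZero N] [NeZero m] : S30.Fin.UniqStatement N m :=
  fun _ _ _ h h' => H822.isKum_unique N m h h'

/-- Every `m`-torsion class of `J₀(N)(ℚ̄)` is the Kummer class of a character of `Γ₀(N)`. -/
theorem exists_isKum_of_torsion (N m : ℕ) [NeZero N] [NeZero m] (x : JZero N)
    (hx : (m : ℤ) • x = 0) : ∃ c : G0 N → ZMod m, IsKum N m c x :=
  S30.Fin.exists_isKum_of_torsion N m (clearStatement N m) (nonzeroStatement N)
    (orderStatement N m) x hx

/-- The `m`-torsion of `J₀(N)(ℚ̄)` is finite (set form). -/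
theorem torsion_set_finite (N m : ℕ) [NeZero N] [NeZero m] :
    {x : JZero N | (m : ℤ) • x = 0}.Finite :=
  S30.Fin.finite_torsion_of_pieces N m (clearStatement N m) (nonzeroStatement N)
    (orderStatement N m) (uniqStatement N m)

/-- **G-TORS**: exact statement of `origin/helper17:Fermat/Agent/S17/Skeleton.lean`. -/
theorem torsion_finite (N : ℕ) [NeZero N] (n : ℕ) (hn : n ≠ 0) :
    Finite (Pic0.torsion (AlgebraicClosure ℚ) (modularFunctionFieldBar N) n) := by
  haveI : NeZero n := ⟨hn⟩
  have hfin := torsion_set_finite N n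
  have hsub : ((Pic0.torsion (AlgebraicClosure ℚ) (modularFunctionFieldBar N) n : AddSubgroup _) :
      Set (JZero N)) ⊆ {x : JZero N | (n : ℤ) • x = 0} := by
    intro x hx
    exact Pic0.mem_torsion.mp hx
  exact Set.finite_coe_iff.mpr (hfin.subset hsub)

end Fermat.Agent.S17.H257
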